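import Fermat.Agent.TWPrimes.Interface
import Fermat.Agent.PoitouTate.Inv

/-!
# The adjoint representations: pairing, dimensions, invariants, complex conjugations
-/

set_option autoImplicit false
set_option linter.style.haveILetI false
set_option linter.unusedSectionVars false

noncomputable section

open scoped Pointwise

namespace FLTAgent.TWPrimes

open FLTAgent.PoitouTate

local notation "LL" => AlgebraicClosure ℚ
local notation "GG" => (AlgebraicClosure ℚ ≃ₐ[ℚ] AlgebraicClosure ℚ)
local notation "VS" => ValuationSubring (AlgebraicClosure ℚ)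
local notation "Dec" => ValuationSubring.decompositionSubgroup ℚ

variable {p : ℕ} [Fact p.Prime]

theorem mem_inv {A : Type} [AddCommGroup A] [Module (ZMod p) A]
    {ρ : Representation (ZMod p) GG A} {H : Subgroup GG} {a : A} :
    a ∈ inv ρ H ↔ ∀ g ∈ H, ρ g a = a := by
  simp [inv, Submodule.mem_iInf, sub_eq_zero]

variable {k : Type} [Field k] [Algebra (ZMod p) k]

theorem two_ne_zero' (D : Datum p k) : (2 : k) ≠ 0 := fun h => by
  have h1 : ((2 : ℕ) : ZMod p) = 0 := (algebraMap (ZMod p) k).injective (by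
    rw [map_natCast, map_zero]; exact_mod_cast h)
  rw [ZMod.natCast_eq_zero_iff] at h1
  exact D.ne_two ((Nat.prime_dvd_prime_iff_eq Fact.out Nat.prime_two).1 h1)

theorem W_trace (A : W k) : A.1 0 0 + A.1 1 1 = 0 := by
  have h := LinearMap.mem_ker.1 A.2
  rwa [Matrix.traceLinearMap_apply, Matrix.trace_fin_two] at h

theorem ad_coe (D : Datum p k) (e : ℕ) (σ : GG) (A : W k) : (ad D e σ A).1 = adM D e σ A.1 := rfl

theorem adM_zero (D : Datum p k) (σ : GG) (A : Matrix (Fin 2) (Fin 2) k) :
    adM D 0 σ A =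
      (D.rb σ : Matrix (Fin 2) (Fin 2) k) * A * ((D.rb σ)⁻¹ : GL (Fin 2) k).val := by
  rw [adM, pow_zero, map_one, one_smul]

theorem om_of_rb (D : Datum p k) {σ : GG} (h : D.rb σ = 1) : om p σ = 1 := by
  have h1 := D.det_cyclo σ
  rw [h, Units.val_one, Matrix.det_one, ← map_one (algebraMap (ZMod p) k)] at h1
  exact ((algebraMap (ZMod p) k).injective h1).symm

theorem ad_of_rb (D : Datum p k) (e : ℕ) {σ : GG} (h : D.rb σ = 1) :
    ad D e σ = LinearMap.id := LinearMap.ext fun A => Subtype.ext (by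
  rw [ad_coe, adM, h, om_of_rb D h, one_pow, map_one, one_smul, inv_one, Units.val_one, one_mul,
    mul_one]
  rfl)

/-- The level of the representation. -/
theorem smooth_ad (D : Datum p k) (e : ℕ) : Smooth (ad D e) := by
  obtain ⟨L, hL, hlev⟩ := D.level
  exact ⟨L, hL, fun g hg => ad_of_rb D e
    (hlev g fun x hx => (IntermediateField.mem_fixingSubgroup_iff L g).1 hg x hx)⟩

theorem finrank_trZ : Module.finrank k (W k) = 3 := by
  have h := LinearMap.finrank_range_add_finrank_ker (Matrix.traceLinearMap (Fin 2) k k)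
  have hs : LinearMap.range (Matrix.traceLinearMap (Fin 2) k k) = ⊤ :=
    LinearMap.range_eq_top.2 fun a => ⟨!![a, 0; 0, 0], by simp [Matrix.trace_fin_two]⟩
  rw [hs, finrank_top, Module.finrank_self, Module.finrank_matrix, Fintype.card_fin,
    Module.finrank_self] at h
  show Module.finrank k ↥(FLTAgent.Lowering.P1.Datum.trZero k) = 3
  unfold FLTAgent.Lowering.P1.Datum.trZero
  omega

variable [Finite k]

theorem finite_coeff : FiniteDimensional (ZMod p) k := Module.Finite.of_finite

instance finite_W : Finite (W k) :=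
  haveI : Finite (Matrix (Fin 2) (Fin 2) k) := inferInstanceAs (Finite (Fin 2 → Fin 2 → k))
  inferInstance

instance finiteDimensional_W : FiniteDimensional (ZMod p) (W k) := Module.Finite.of_finite

theorem finrank_adW : Module.finrank (ZMod p) (W k) = 3 * deg (p := p) k := by
  rw [← Module.finrank_mul_finrank (ZMod p) k (W k), finrank_trZ, mul_comm]

/-- The trace pairing. -/
def traceE : W k →ₗ[ZMod p] W k →ₗ[ZMod p] ZMod p :=
  LinearMap.mk₂ (ZMod p) (fun a b => Algebra.trace (ZMod p) k (Matrix.trace (a.1 * b.1)))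
    (fun a a' b => by simp [add_mul, Matrix.trace_add])
    (fun r a b => by
      simp only [Submodule.coe_smul_of_tower, smul_mul_assoc, Matrix.trace_smul, map_smul,
        smul_eq_mul])
    (fun a b b' => by simp [mul_add, Matrix.trace_add])
    (fun r a b => by
      simp only [Submodule.coe_smul_of_tower, mul_smul_comm, Matrix.trace_smul, map_smul,
        smul_eq_mul])

theorem eq_zero_of_trace {a : k} (h : ∀ b : k, Algebra.trace (ZMod p) k (a * b) = 0) : a = 0 := by
  haveI := finite_coeff (p := p) (k := k)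
  exact (traceForm_nondegenerate (ZMod p) k).1 a fun b => h b

theorem eq_zero_of_pairing (D : Datum p k) {a : W k}
    (h : ∀ b : W k, Algebra.trace (ZMod p) k (Matrix.trace (a.1 * b.1)) = 0) : a = 0 := by
  have h2 := two_ne_zero' D
  have htr : ∀ b : W k, Matrix.trace (a.1 * b.1) = 0 := fun b => eq_zero_of_trace (p := p) fun r => by
    have h1 := h (r • b)
    rwa [SetLike.val_smul, mul_smul_comm, Matrix.trace_smul, smul_eq_mul, mul_comm] at h1
  have mk : ∀ x y z : k, (!![x, y; z, -x] : Matrix (Fin 2) (Fin 2) k) ∈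
      FLTAgent.Lowering.P1.Datum.trZero k := fun x y z =>
    LinearMap.mem_ker.2 (by simp [Matrix.trace_fin_two])
  have e0 := htr ⟨_, mk 1 0 0⟩
  have e1 := htr ⟨_, mk 0 1 0⟩
  have e2 := htr ⟨_, mk 0 0 1⟩
  simp [Matrix.trace_fin_two, Matrix.mul_apply] at e0 e1 e2
  have e3 := W_trace a
  have h00 : a.1 0 0 = 0 := by
    have h4 : (2 : k) * a.1 0 0 = 0 := by linear_combination e0 + e3
    exact (mul_eq_zero.1 h4).resolve_left h2
  refine Subtype.ext (Matrix.ext fun i j => ?_)
  fin_cases i <;> fin_cases j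
  · exact h00
  · exact e2
  · exact e1
  · show a.1 1 1 = 0
    linear_combination e3 - h00

/-- The adjoint representation and its twist are dual. -/
def adPair (D : Datum p k) : DualPair (ad D 0) (ad D 1) where
  e := traceE
  equivariant g a b := by
    show Algebra.trace (ZMod p) k (Matrix.trace ((ad D 0 g a).1 * (ad D 1 g b).1)) =
      om p g * Algebra.trace (ZMod p) k (Matrix.trace (a.1 * b.1))
    rw [ad_coe, ad_coe, adM_zero, adM, pow_one, Matrix.mul_smul, Matrix.trace_smul, smul_eq_mul,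
      ← Algebra.smul_def, map_smul, smul_eq_mul]
    congr 2
    set M := (D.rb g : Matrix (Fin 2) (Fin 2) k)
    set M' := ((D.rb g)⁻¹ : GL (Fin 2) k).val
    have hM : M' * M = 1 := by
      rw [← Units.val_mul, inv_mul_cancel, Units.val_one]
    rw [show M * a.1 * M' * (M * b.1 * M') = M * (a.1 * b.1 * M') by
      rw [show M * a.1 * M' * (M * b.1 * M') = M * a.1 * (M' * M) * b.1 * M' by
        simp only [Matrix.mul_assoc], hM]
      simp only [Matrix.mul_one, Matrix.mul_assoc],
      Matrix.trace_mul_comm, Matrix.mul_assoc, hM, Matrix.mul_one]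
  left a ha := eq_zero_of_pairing D ha
  right b hb := eq_zero_of_pairing D fun a => by rw [Matrix.trace_mul_comm]; exact hb a

theorem adPair_apply (D : Datum p k) (a b : W k) :
    (adPair D).e a b = Algebra.trace (ZMod p) k (Matrix.trace (a.1 * b.1)) := rfl

/-! ### Complex conjugations -/

variable (p) in
theorem om_of_isCC {c : GG} (hc : IsCC c) : om p c = -1 := by
  haveI : NeZero p := ⟨(Fact.out : p.Prime).ne_zero⟩
  obtain ⟨ι, hι⟩ := hc
  have hζ := zeta_spec p
  set z := PoitouTate.zeta p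
  have hz0 : z ≠ 0 := hζ.ne_zero (NeZero.ne p)
  have h1 : ‖ι z‖ = 1 := Complex.norm_eq_one_of_pow_eq_one
    (by rw [← map_pow, hζ.pow_eq_one, map_one]) (NeZero.ne p)
  have h2 : c z = z⁻¹ := by
    refine ι.injective ?_
    rw [hι, map_inv₀, Complex.inv_eq_conj h1]
  have h3 : z ^ (-1 : ZMod p).val = z⁻¹ := by
    refine eq_inv_of_mul_eq_one_left ?_
    conv_lhs => arg 2; rw [← pow_one z]
    rw [← pow_add, ← orderOf_dvd_iff_pow_eq_one, ← hζ.eq_orderOf,
      ← ZMod.natCast_eq_zero_iff, Nat.cast_add, ZMod.natCast_zmod_val, Nat.cast_one,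
      neg_add_cancel]
  rw [apply_zeta, ← h3] at h2
  exact ZMod.val_injective p (hζ.pow_inj (ZMod.val_lt _) (ZMod.val_lt _) h2)

theorem exists_isCC : ∃ c : GG, IsCC c := by
  haveI : Algebra.IsAlgebraic ℚ LL := AlgebraicClosure.isAlgebraic ℚ
  obtain ⟨ι⟩ : Nonempty (LL →ₐ[ℚ] ℂ) := ⟨IsAlgClosed.lift⟩
  letI : Algebra LL ℂ := ι.toRingHom.toAlgebra
  haveI : IsScalarTower ℚ LL ℂ := IsScalarTower.of_algebraMap_eq fun x => (ι.commutes x).symm
  haveI : Normal ℚ LL := normal_iff.2 fun x =>
    ⟨((AlgebraicClosure.isAlgebraic ℚ).isAlgebraic x).isIntegral, IsAlgClosed.splits _⟩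
  exact ⟨(Complex.conjAe.restrictScalars ℚ).restrictNormal LL, ι.toRingHom, fun x =>
    AlgEquiv.restrictNormal_commutes (Complex.conjAe.restrictScalars ℚ) LL x⟩

theorem sq_of_isCC {c : GG} (hc : IsCC c) : c * c = 1 := by
  obtain ⟨ι, hι⟩ := hc
  exact AlgEquiv.ext fun x => ι.injective (by
    rw [AlgEquiv.mul_apply, hι, hι, Complex.conj_conj, AlgEquiv.one_apply])

/-- A complex conjugation is an involution of trace zero. -/
theorem trace_of_isCC (D : Datum p k) {c : GG} (hc : IsCC c) :
    Matrix.trace (D.rb c : Matrix (Fin 2) (Fin 2) k) = 0 ∧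
      (D.rb c : Matrix (Fin 2) (Fin 2) k) * D.rb c = 1 := by
  have hsq : (D.rb c : Matrix (Fin 2) (Fin 2) k) * D.rb c = 1 := by
    rw [← Units.val_mul, ← map_mul, sq_of_isCC hc, map_one, Units.val_one]
  refine ⟨?_, hsq⟩
  set M := (D.rb c : Matrix (Fin 2) (Fin 2) k)
  have hd : Matrix.det M = -1 := by rw [D.det_cyclo, om_of_isCC p hc, map_neg, map_one]
  have e00 := congrFun (congrFun hsq 0) 0
  have e11 := congrFun (congrFun hsq 1) 1
  simp [Matrix.mul_apply] at e00 e11
  rw [Matrix.det_fin_two] at hd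
  have h0 : (M 0 0 + M 1 1) * (M 0 0 + M 1 1) = 0 := by linear_combination e00 + e11 + 2 * hd
  rw [Matrix.trace_fin_two]
  exact mul_self_eq_zero.1 h0

/-- The fixed vectors of a complex conjugation. -/
theorem deg_le_inv_isCC (D : Datum p k) {c : GG} (hc : IsCC c) :
    deg (p := p) k ≤ Module.finrank (ZMod p) ↥(inv (ad D 0) (Subgroup.zpowers c)) := by
  haveI := finite_coeff (p := p) (k := k)
  obtain ⟨htr, hsq⟩ := trace_of_isCC D hc
  set A : W k := ⟨(D.rb c : Matrix (Fin 2) (Fin 2) k), LinearMap.mem_ker.2 htr⟩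
  have hfix : ∀ r : k, r • A ∈ inv (ad D 0) (Subgroup.zpowers c) := fun r => by
    rw [mem_inv]
    intro g hg
    have hc1 : ad D 0 c (r • A) = r • A := Subtype.ext (by
      rw [ad_coe, adM_zero, SetLike.val_smul, Matrix.mul_smul, Matrix.smul_mul]
      congr 1
      show (D.rb c : Matrix (Fin 2) (Fin 2) k) * D.rb c * ((D.rb c)⁻¹ : GL (Fin 2) k).val = _
      rw [Matrix.mul_assoc, ← Units.val_mul (D.rb c) (D.rb c)⁻¹, mul_inv_cancel, Units.val_one,
        Matrix.mul_one])
    obtain ⟨n, rfl⟩ := Subgroup.mem_zpowers_iff.1 hg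
    induction n using Int.induction_on with
    | zero => rw [zpow_zero]; exact rho_one _ _
    | succ n ih => rw [zpow_add_one, rho_mul, hc1, ih (Subgroup.zpow_mem_zpowers _ _)]
    | pred n ih =>
      rw [zpow_sub_one, rho_mul]
      have h1 : ad D 0 c⁻¹ (r • A) = r • A := by
        conv_lhs => rw [← hc1, ← rho_mul, inv_mul_cancel, rho_one]
      rw [h1, ih (Subgroup.zpow_mem_zpowers _ _)]
  let f : k →ₗ[ZMod p] ↥(inv (ad D 0) (Subgroup.zpowers c)) :=
    { toFun := fun r => ⟨r • A, hfix r⟩
      map_add' := fun r s => Subtype.ext (add_smul r s A)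
      map_smul' := fun a r => Subtype.ext (smul_assoc a r A) }
  refine LinearMap.finrank_le_finrank_of_injective (f := f) fun r s h => ?_
  have hA : A ≠ 0 := fun h0 => by
    have h1 : (D.rb c : Matrix (Fin 2) (Fin 2) k) = 0 := congrArg Subtype.val h0
    rw [h1, zero_mul] at hsq
    exact zero_ne_one hsq
  exact smul_left_injective k hA (congrArg Subtype.val h)

/-- The irreducible adjoint representation has no fixed vector. -/
theorem inv_ad_top (D : Datum p k) : inv (ad D 0) ⊤ = ⊥ := by
  refine (Submodule.eq_bot_iff _).2 fun A hA => ?_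
  rw [mem_inv] at hA
  by_contra hA0
  set M := fun σ : GG => (D.rb σ : Matrix (Fin 2) (Fin 2) k)
  have hcomm : ∀ σ, M σ * A.1 = A.1 * M σ := fun σ => by
    have h := congrArg Subtype.val (hA σ (Subgroup.mem_top σ))
    rw [ad_coe, adM_zero] at h
    calc M σ * A.1 = M σ * A.1 * (((D.rb σ)⁻¹ : GL (Fin 2) k).val * M σ) := by
          rw [← Units.val_mul, inv_mul_cancel, Units.val_one, Matrix.mul_one]
      _ = A.1 * M σ := by rw [← Matrix.mul_assoc, h]
  obtain ⟨c, hc⟩ := exists_isCC
  obtain ⟨htr, hsq⟩ := trace_of_isCC D hc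
  set C := M c
  have h2 := two_ne_zero' D
  -- an eigenvector of the conjugation, of eigenvalue one
  obtain ⟨v, hv0, hv⟩ : ∃ v : Fin 2 → k, v ≠ 0 ∧ C.mulVec v = v := by
    have h0 : (C - 1).det = 0 := by
      have hd : Matrix.det C = -1 := by rw [D.det_cyclo, om_of_isCC p hc, map_neg, map_one]
      rw [Matrix.det_fin_two] at hd ⊢
      rw [Matrix.trace_fin_two] at htr
      simp
      linear_combination hd - htr
    obtain ⟨v, hv, hv'⟩ := Matrix.exists_mulVec_eq_zero_iff.2 h0
    exact ⟨v, hv, by rwa [Matrix.sub_mulVec, Matrix.one_mulVec, sub_eq_zero] at hv'⟩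
  have hline : ∀ (B : Matrix (Fin 2) (Fin 2) k) (a : k) (v w : Fin 2 → k), v ≠ 0 →
      B.mulVec v = a • v → B.mulVec w = a • w → (∀ r : k, w ≠ r • v) → B = a • 1 := by
    intro B a v w hv h1 h2 hw
    have hd : v 0 * w 1 - v 1 * w 0 ≠ 0 := by
      intro hd
      by_cases h : v 0 = 0
      · have hv1 : v 1 ≠ 0 := fun h' => hv (funext (Fin.forall_fin_two.2 ⟨h, h'⟩))
        have hw0 : w 0 = 0 := by
          rw [h, zero_mul, zero_sub, neg_eq_zero, mul_eq_zero] at hd
          exact hd.resolve_left hv1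
        exact hw (w 1 / v 1) (funext (Fin.forall_fin_two.2
          ⟨by simp [h, hw0], by simp [hv1]⟩))
      · refine hw (w 0 / v 0) (funext (Fin.forall_fin_two.2 ⟨by simp [h], ?_⟩))
        simp only [Pi.smul_apply, smul_eq_mul]
        field_simp
        linear_combination hd
    ext i j
    have e1 := congrFun h1 i
    have e2 := congrFun h2 i
    simp only [Matrix.mulVec, dotProduct, Fin.sum_univ_two, Pi.smul_apply, smul_eq_mul] at e1 e2
    refine mul_right_cancel₀ hd ?_
    fin_cases i <;> fin_cases j <;> simp [-mul_eq_mul_right_iff, -mul_eq_zero] at e1 e2 ⊢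
    · linear_combination w 1 * e1 - v 1 * e2
    · linear_combination v 0 * e2 - w 0 * e1
    · linear_combination w 1 * e1 - v 1 * e2
    · linear_combination v 0 * e2 - w 0 * e1
  obtain ⟨a, ha⟩ : ∃ a : k, A.1.mulVec v = a • v := by
    by_contra hn
    push Not at hn
    have hCA : C.mulVec (A.1.mulVec v) = A.1.mulVec v := by
      rw [Matrix.mulVec_mulVec, hcomm c, ← Matrix.mulVec_mulVec, hv]
    have h1 := hline C 1 v (A.1.mulVec v) hv0 (by rw [hv, one_smul]) (by rw [hCA, one_smul]) hn
    change Matrix.trace C = 0 at htr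
    rw [h1] at htr
    simp at htr
    exact h2 (by linear_combination htr)
  obtain ⟨σ, hσ⟩ := D.irred v hv0
  have h1 := hline A.1 a v ((M σ).mulVec v) hv0 ha (by
    rw [Matrix.mulVec_mulVec, ← hcomm σ, ← Matrix.mulVec_mulVec, ha, Matrix.mulVec_smul]) hσ
  have htA := W_trace A
  rw [h1] at htA
  simp at htA
  have ha0 : a = 0 := (mul_eq_zero.1 (show (2 : k) * a = 0 by linear_combination htA)).resolve_left h2
  exact hA0 (Subtype.ext (by rw [h1, ha0, zero_smul]; rfl))

end FLTAgent.TWPrimes
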