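import Fermat.Agent.TWPrimes.Count.Pair
import Fermat.Agent.Mazur.AtP
import Fermat.Agent.PoitouTate.Field.Target
import Fermat.Agent.PoitouTate.Sha.Basic
import Fermat.Agent.TWPrimes.Dev.Detect

/-!
# The field of the residual representation

Its group is the kernel; cocycles with values in the adjoint representations are finite, and
vanishing on inertia characterises the unramified ones.
-/

set_option autoImplicit false
set_option linter.style.haveILetI false
set_option linter.unusedSectionVars false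

noncomputable section

open scoped Pointwise

namespace FLTAgent.TWPrimes

open FLTAgent.PoitouTate FLTAgent.Lowering.P1.Brauer

local notation "LL" => AlgebraicClosure ℚ
local notation "GG" => (AlgebraicClosure ℚ ≃ₐ[ℚ] AlgebraicClosure ℚ)
local notation "VS" => ValuationSubring (AlgebraicClosure ℚ)
local notation "Dec" => ValuationSubring.decompositionSubgroup ℚ
local notation "idG" => MonoidHom.id (AlgebraicClosure ℚ ≃ₐ[ℚ] AlgebraicClosure ℚ)

variable {p : ℕ} [Fact p.Prime]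

/-- A cocycle killing inertia outside `S` has a level unramified outside `S`. -/
theorem mem_Z1S_of_inertia {A : Type} [AddCommGroup A] [Module (ZMod p) A]
    {ρ : Representation (ZMod p) GG A} {S : Finset Nat.Primes} (hρ : Smooth ρ) {c : GG → A}
    (hc : c ∈ Z1 ρ idG)
    (h : ∀ q : Nat.Primes, q ∉ S → ∀ V : VS, V.LiesOverPrime (q : ℕ) →
      ∀ σ ∈ V.inertiaSubgroupIn ℚ, ρ σ = LinearMap.id ∧ c σ = 0) :
    c ∈ Z1S ρ idG S := by
  have hcoc : ∀ g h, c (g * h) = c g + ρ g (c h) := hc.2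
  let K : Subgroup GG :=
    { carrier := {σ | ρ σ = LinearMap.id ∧ c σ = 0}
      one_mem' := ⟨map_one ρ, coc_map_one hcoc⟩
      mul_mem' := fun {x y} hx hy => ⟨LinearMap.ext fun a => by
        rw [rho_mul ρ, hy.1, hx.1]; rfl, by rw [hcoc, hx.2, hy.2, map_zero, add_zero]⟩
      inv_mem' := fun {x} hx => ⟨LinearMap.ext fun a => by
        conv_lhs => rw [show a = ρ x a by rw [hx.1]; rfl, ← rho_mul ρ, inv_mul_cancel, rho_one]
        rfl, by rw [coc_map_inv hcoc, hx.2, map_zero, neg_zero]⟩ }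
  obtain ⟨⟨E, hE, hl⟩, -⟩ := hc
  obtain ⟨F, hF, hF'⟩ := hρ
  obtain ⟨M, hM, hMn, hle⟩ := exists_normal_le (E ⊔ F)
  have hMK : ∀ g σ : GG, σ ∈ M.fixingSubgroup → g * σ * g⁻¹ ∈ K := fun g σ hσ => by
    have h1 : g * σ * g⁻¹ ∈ M.fixingSubgroup := by simpa using fix_conj hσ g⁻¹
    refine ⟨hF' _ (IntermediateField.fixingSubgroup_antitone (le_sup_right.trans hle) h1), ?_⟩
    have h2 := hl 1 _ (IntermediateField.fixingSubgroup_antitone (le_sup_left.trans hle) h1)
    rwa [one_mul, coc_map_one hcoc] at h2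
  have hopen : OpenIn K.normalCore ⊤ := ⟨M, hM, fun σ hσ g => hMK g σ (Subgroup.mem_inf.1 hσ).2⟩
  obtain ⟨L, hL, hLA⟩ := exists_field_of_open hopen
  refine ⟨⟨⟨E, hE, hl⟩, hcoc⟩, L, ⟨hL, fun q hq V hV σ hσ => ?_⟩, fun g s hs => ?_⟩
  · show σ ∈ FLTAgent.Lowering.P1.galOf L
    rw [hLA]
    exact fun g => h q hq (g • V) (Places.liesOverPrime_smul V g hV) _
      (Places.conj_mem_inertia V hσ g)
  · have h1 : s ∈ K := Subgroup.normalCore_le K (hLA ▸ (hs : s ∈ FLTAgent.Lowering.P1.galOf L))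
    rw [hcoc, h1.2, map_zero, add_zero]

theorem inertia_eq_zero {A : Type} [AddCommGroup A] [Module (ZMod p) A]
    {ρ : Representation (ZMod p) GG A} {S : Finset Nat.Primes} {c : GG → A}
    (hc : c ∈ Z1S ρ idG S) {q : Nat.Primes} (hq : q ∉ S) {V : VS} (hV : V.LiesOverPrime (q : ℕ))
    {σ : GG} (hσ : σ ∈ V.inertiaSubgroupIn ℚ) : c σ = 0 := by
  obtain ⟨⟨-, hcoc⟩, L, hL, hlev⟩ := hc
  have h := hlev 1 σ (hL.2 q hq V hV hσ)
  rw [one_mul] at h
  exact h.trans (coc_map_one hcoc)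

variable {k : Type} [Field k] [Algebra (ZMod p) k] (D : Datum p k)

/-- The field of the kernel. -/
theorem exists_field : ∃ F : SField p D.bad, F.N = D.rb.ker := by
  obtain ⟨L₀, hL₀, hlev⟩ := D.level
  have hopen : OpenIn D.rb.ker ⊤ := ⟨L₀, hL₀, fun σ hσ => MonoidHom.mem_ker.2 (hlev σ fun x hx =>
    (IntermediateField.mem_fixingSubgroup_iff L₀ σ).1 (Subgroup.mem_inf.1 hσ).2 x hx)⟩
  obtain ⟨L, hL, hLA⟩ := exists_field_of_open hopen
  haveI := FLTAgent.Mazur.isGalois_QQb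
  have hn : L.fixingSubgroup.Normal := by
    rw [show L.fixingSubgroup = D.rb.ker from hLA]
    infer_instance
  haveI : IsGalois ℚ L := (InfiniteGalois.normal_iff_isGalois L).1 hn
  refine ⟨⟨L, hL, IsGalois.to_normal, ⟨hL, fun q hq V hV σ hσ => ?_⟩, fun g hg => ?_⟩, hLA⟩
  · show σ ∈ FLTAgent.Lowering.P1.galOf L
    rw [hLA]
    exact MonoidHom.mem_ker.2 (D.unramified q hq V hV σ hσ)
  · exact om_of_rb D (MonoidHom.mem_ker.1 (hLA ▸ hg))

theorem triv_ad {F : SField p D.bad} (hF : F.N = D.rb.ker) (e : ℕ) : F.Triv (ad D e) :=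
  fun _ hg => ad_of_rb D e (MonoidHom.mem_ker.1 (hF ▸ hg))

theorem ad_of_inertia (e : ℕ) {q : Nat.Primes} (hq : q ∉ D.bad) {V : VS}
    (hV : V.LiesOverPrime (q : ℕ)) {σ : GG} (hσ : σ ∈ V.inertiaSubgroupIn ℚ) :
    ad D e σ = LinearMap.id := ad_of_rb D e (D.unramified q hq V hV σ hσ)

variable [Finite k]

theorem finite_Z1S_ad (e : ℕ) (S : Finset Nat.Primes) (hbad : D.bad ⊆ S) :
    FiniteDimensional (ZMod p) ↥(Z1S (ad D e) idG S) := by
  obtain ⟨F, hF⟩ := exists_field D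
  have hp3 : 2 < p := lt_of_le_of_ne (Fact.out : p.Prime).two_le (Ne.symm D.ne_two)
  obtain ⟨R, hR, -⟩ := exists_splaces (Field.mono F hbad) ∅ (by simp) (by simp)
  haveI := Field.finite_global (Field.mono F hbad) hR (hbad D.p_mem) hp3
  haveI : FiniteDimensional (ZMod p) ↥(Z1S (omRep p) (Field.mono F hbad).N.subtype S) :=
    Module.Finite.of_finite
  have htriv : (Field.mono F hbad).Triv (ad D e) := fun g hg =>
    ad_of_rb D e (MonoidHom.mem_ker.1 (hF ▸ (hg : g ∈ F.N)))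
  exact finite_Z1S htriv

end FLTAgent.TWPrimes
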