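import Fermat.Agent.TWPrimes.Count.Residual

/-!
# The count, for given places and local spaces
-/

set_option autoImplicit false
set_option linter.style.haveILetI false
set_option linter.unusedSectionVars false

noncomputable section

open scoped Pointwise

namespace FLTAgent.TWPrimes

open FLTAgent.PoitouTate FLTAgent.Lowering.P1.Brauer

local notation "LL" => AlgebraicClosure ℚ
local notation "GG" => (AlgebraicClosure ℚ ≃ₐ[ℚ] AlgebraicClosure ℚ)
local notation "VS" => ValuationSubring (AlgebraicClosure ℚ)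
local notation "Dec" => ValuationSubring.decompositionSubgroup ℚ
local notation "idG" => MonoidHom.id (AlgebraicClosure ℚ ≃ₐ[ℚ] AlgebraicClosure ℚ)

variable {p : ℕ} [Fact p.Prime]

theorem finrank_B1_add {A : Type} [AddCommGroup A] [Module (ZMod p) A]
    [FiniteDimensional (ZMod p) A] (ρ : Representation (ZMod p) GG A) (H : Subgroup GG) :
    Module.finrank (ZMod p) ↥(B1 ρ H.subtype) + Module.finrank (ZMod p) ↥(inv ρ H) =
      Module.finrank (ZMod p) A := by
  have h : LinearMap.ker (d0 ρ H.subtype) = inv ρ H := by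
    ext a
    rw [LinearMap.mem_ker, mem_inv]
    exact ⟨fun h g hg => sub_eq_zero.1 (congrFun h ⟨g, hg⟩),
      fun h => funext fun g => sub_eq_zero.2 (h g g.2)⟩
  rw [← h]
  exact LinearMap.finrank_range_add_finrank_ker (d0 ρ H.subtype)

variable {k : Type} [Field k] [Algebra (ZMod p) k] [Finite k] (D : Datum p k)

theorem cup_mem_Z2S {S : Finset Nat.Primes} (hbad : D.bad ⊆ S) {z y : GG → W k}
    (hz : z ∈ Z1S (ad D 0) idG S) (hy : y ∈ Z1S (ad D 1) idG S) :
    cup idG (adPair D).e (ad D 1) z y ∈ Z2S (omRep p) idG S := by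
  refine ⟨cup_mem_Z2 (adPair D) (smooth_ad D 1) hz.1 hy.1, ?_⟩
  obtain ⟨F, hF⟩ := exists_field D
  obtain ⟨E, hE, hlz⟩ := hz.2
  obtain ⟨E', hE', hly⟩ := hy.2
  refine ⟨E ⊔ E' ⊔ F.K, (hE.sup hE').sup (F.unram.mono hbad), fun g h s t hs ht => ?_⟩
  have hsN : ad D 1 s = LinearMap.id :=
    triv_ad D hF 1 s (IntermediateField.fixingSubgroup_antitone le_sup_right hs)
  simp only [cup, MonoidHom.id_apply]
  rw [hlz g s (IntermediateField.fixingSubgroup_antitone (le_sup_left.trans le_sup_left) hs),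
    hly h t (IntermediateField.fixingSubgroup_antitone (le_sup_right.trans le_sup_left) ht),
    rho_mul, hsN, LinearMap.id_apply]

theorem count (S : Finset Nat.Primes) (hbad : D.bad ⊆ S) (V : Nat.Primes → VS)
    (hV : ∀ q, (V q).LiesOverPrime (q : ℕ))
    (P : (q : Nat.Primes) → Submodule (ZMod p) (↥(Dec (V q)) → W k))
    (hP : ∀ q ∈ S, IsLoc D (V q) (P q))
    (hlow : 4 * deg (p := p) k + ∑ q ∈ S, Module.finrank (ZMod p) ↥(inv (ad D 0) (Dec (V q))) ≤
      Module.finrank (ZMod p) ↥(Z1S (ad D 1) idG S))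
    (Z : Submodule (ZMod p) (GG → W k)) (hZ : Z ≤ Z1S (ad D 0) idG S)
    (hres : ∀ z ∈ Z, ∀ q ∈ S, res1 (p := p) (Dec (V q)).subtype z ∈ P q)
    (hdet0 : ∀ z ∈ Z, (∀ q ∈ S, res1 (p := p) (Dec (V q)).subtype z ∈
        B1 (ad D 0) (Dec (V q)).subtype) → z ∈ B1 (ad D 0) idG)
    (hdet1 : ∀ y ∈ Z1S (ad D 1) idG S, (∀ q ∈ S, ∀ x ∈ P q,
        invL p (V q) (Dec (V q)) (cup (Dec (V q)).subtype (adPair D).e (ad D 1) x
          (res1 (p := p) (Dec (V q)).subtype y)) = 0) → y ∈ B1 (ad D 1) idG) :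
    FiniteDimensional (ZMod p) ↥Z ∧
      (Module.finrank (ZMod p) ↥Z : ℤ) ≤ 2 * deg (p := p) k +
        ∑ q ∈ S, ((Module.finrank (ZMod p) ↥(P q) : ℤ) - 3 * deg (p := p) k) := by
  classical
  have hpS := hbad D.p_mem
  haveI := finite_Z1S_ad D 0 S hbad
  haveI := finite_Z1S_ad D 1 S hbad
  haveI : FiniteDimensional (ZMod p) ↥Z := Submodule.finiteDimensional_of_le hZ
  refine ⟨inferInstance, ?_⟩
  haveI hW : ∀ q : ↥S, FiniteDimensional (ZMod p) ↥(P q.1) := fun q => (hP q.1 q.2).2.2
  haveI hC' : ∀ q : ↥S, FiniteDimensional (ZMod p) ↥(B1 (ad D 0) (Dec (V q.1)).subtype) :=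
    fun q => Module.Finite.range _
  haveI hC1 : FiniteDimensional (ZMod p) ↥(B1 (ad D 1) idG) := Module.Finite.range _
  haveI hC0 : FiniteDimensional (ZMod p) ↥(B1 (ad D 0) idG) := Module.Finite.range _
  haveI hF1 : ∀ q : ↥S, Module.Free (ZMod p) ↥(P q.1) := fun q => Module.Free.of_divisionRing _ _
  haveI hF2 : ∀ q : ↥S, Module.Free (ZMod p) ↥(B1 (ad D 0) (Dec (V q.1)).subtype) := fun q =>
    Module.Free.of_divisionRing _ _
  set B := Z1S (ad D 1) idG S
  let Wl : Type := (q : ↥S) → ↥(P q.1)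
  letI : AddCommGroup Wl := Pi.addCommGroup
  letI : Module (ZMod p) Wl := Pi.module _ _ _
  let C : Type := (q : ↥S) → ↥(B1 (ad D 0) (Dec (V q.1)).subtype)
  letI : AddCommGroup C := Pi.addCommGroup
  letI : Module (ZMod p) C := Pi.module _ _ _
  let Ψ : ↥Z →ₗ[ZMod p] Wl := LinearMap.pi fun q : ↥S =>
    ((res1 (p := p) (Dec (V q.1)).subtype).comp Z.subtype).codRestrict (P q.1)
      fun z => hres z.1 z.2 q.1 q.2
  let incl : C →ₗ[ZMod p] Wl := LinearMap.pi fun q : ↥S =>
    (Submodule.inclusion (hP q.1 q.2).2.1).comp (LinearMap.proj q)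
  let Θ : ↥Z × C →ₗ[ZMod p] Wl := Ψ.coprod incl
  have hinvy : ∀ (q : ↥S) (y : ↥B),
      res1 (p := p) (Dec (V q.1)).subtype y.1 ∈ Z1 (ad D 1) (Dec (V q.1)).subtype :=
    fun q y => res1_mem_Z1 (Dec (V q.1)).subtype y.2.1
  have hcupZ : ∀ (q : ↥S) (x : ↥(P q.1)) (y : ↥B),
      cup (Dec (V q.1)).subtype (adPair D).e (ad D 1) x.1
        (res1 (p := p) (Dec (V q.1)).subtype y.1) ∈ Z2 (omRep p) (Dec (V q.1)).subtype :=
    fun q x y => cup_mem_Z2 (adPair D) (smooth_ad D 1) ((hP q.1 q.2).1 x.2) (hinvy q y)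
  let pairW : ↥B → Wl → ZMod p := fun y w =>
    ∑ q : ↥S, invL p (V q.1) (Dec (V q.1)) (cup (Dec (V q.1)).subtype (adPair D).e (ad D 1) (w q).1
      (res1 (p := p) (Dec (V q.1)).subtype y.1))
  have hadd1 : ∀ y y' w, pairW (y + y') w = pairW y w + pairW y' w := fun y y' w => by
    simp only [pairW, ← Finset.sum_add_distrib]
    refine Finset.sum_congr rfl fun q _ => ?_
    rw [← invL_add D.ne_two q.1.2 (hV q.1) localSub_self (hcupZ q _ y) (hcupZ q _ y')]
    congr 1
    funext g h
    simp [cup, res1_apply]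
  have hadd2 : ∀ y w w', pairW y (w + w') = pairW y w + pairW y w' := fun y w w' => by
    simp only [pairW, ← Finset.sum_add_distrib]
    refine Finset.sum_congr rfl fun q _ => ?_
    rw [← invL_add D.ne_two q.1.2 (hV q.1) localSub_self (hcupZ q _ y) (hcupZ q _ y)]
    congr 1
    funext g h
    show (adPair D).e ((w q).1 g + (w' q).1 g) _ = _
    simp [cup, res1_apply]
  have hsmul1 : ∀ (r : ZMod p) y w, pairW (r • y) w = r • pairW y w := fun r y w => by
    simp only [pairW, smul_eq_mul, Finset.mul_sum]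
    refine Finset.sum_congr rfl fun q _ => ?_
    rw [← invL_smul D.ne_two q.1.2 (hV q.1) localSub_self r (hcupZ q _ y)]
    congr 1
    funext g h
    simp [cup, res1_apply]
  have hsmul2 : ∀ (r : ZMod p) y w, pairW y (r • w) = r • pairW y w := fun r y w => by
    simp only [pairW, smul_eq_mul, Finset.mul_sum]
    refine Finset.sum_congr rfl fun q _ => ?_
    rw [← invL_smul D.ne_two q.1.2 (hV q.1) localSub_self r (hcupZ q _ y)]
    congr 1
    funext g h
    show (adPair D).e (r • (w q).1 g) _ = _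
    simp [cup, res1_apply]
  let Φ : ↥B →ₗ[ZMod p] Module.Dual (ZMod p) Wl :=
    LinearMap.mk₂ (ZMod p) pairW hadd1 hsmul1 hadd2 hsmul2
  -- the two images are orthogonal
  have horth : LinearMap.range Θ ≤ (LinearMap.range Φ).dualCoannihilator := by
    rintro w ⟨⟨z, c⟩, rfl⟩
    rw [Submodule.mem_dualCoannihilator]
    rintro f ⟨y, rfl⟩
    show pairW y (Θ (z, c)) = 0
    have hs := invL_sum D.ne_two S hpS V hV (cup_mem_Z2S D hbad (hZ z.2) y.2)
    rw [← Finset.sum_coe_sort S] at hs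
    refine Eq.trans (Finset.sum_congr rfl fun q _ => ?_) hs
    have hz : res1 (p := p) (Dec (V q.1)).subtype z.1 ∈ Z1 (ad D 0) (Dec (V q.1)).subtype :=
      res1_mem_Z1 (Dec (V q.1)).subtype (hZ z.2).1
    have e : res2 (p := p) (Dec (V q.1)).subtype (cup idG (adPair D).e (ad D 1) z.1 y.1) =
        cup (Dec (V q.1)).subtype (adPair D).e (ad D 1) (res1 (p := p) (Dec (V q.1)).subtype z.1)
          (res1 (p := p) (Dec (V q.1)).subtype y.1) := rfl
    rw [e]
    refine invL_congr D.ne_two q.1.2 (hV q.1) localSub_self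
      (cup_mem_Z2 (adPair D) (smooth_ad D 1) hz (hinvy q y)) ?_
    have h := cup_mem_B2_left (adPair D) (c q).2 (hinvy q y)
    convert h using 1
    funext g h
    show (adPair D).e (z.1 (g : GG) + (c q).1 g) _ - (adPair D).e (z.1 (g : GG)) _ = _
    simp [cup, res1_apply]
  -- dimensions
  have hdual := Subspace.finrank_add_finrank_dualCoannihilator_eq (LinearMap.range Φ)
  have hΘd := (Submodule.finrank_mono horth)
  have hkerΦ : Module.finrank (ZMod p) ↥(LinearMap.ker Φ) ≤ 3 * deg (p := p) k := by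
    let f : ↥(LinearMap.ker Φ) →ₗ[ZMod p] ↥(B1 (ad D 1) idG) :=
      (B.subtype.comp (LinearMap.ker Φ).subtype).codRestrict _ fun y => by
        refine hdet1 _ y.1.2 fun q hq x hx => ?_
        have h := LinearMap.congr_fun (LinearMap.mem_ker.1 y.2)
          (Pi.single (M := fun q : ↥S => ↥(P q.1)) ⟨q, hq⟩ ⟨x, hx⟩)
        change pairW y.1 _ = 0 at h
        simp only [pairW] at h
        rw [Finset.sum_eq_single ⟨q, hq⟩] at h
        · simpa using h
        · intro j _ hj
          rw [Pi.single_eq_of_ne hj]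
          refine invL_B2 D.ne_two j.1.2 (hV j.1) localSub_self ?_
          convert Submodule.zero_mem (B2 (omRep p) (Dec (V j.1)).subtype) using 1
          funext g h
          simp [cup]
        · simp
    have hf : Function.Injective f := fun a b h =>
      Subtype.ext (Subtype.ext (by have h0 := congrArg Subtype.val h; exact h0))
    exact (LinearMap.finrank_le_finrank_of_injective hf).trans
      ((LinearMap.finrank_range_le _).trans finrank_adW.le)
  have hkerΘ : Module.finrank (ZMod p) ↥(LinearMap.ker Θ) ≤ 3 * deg (p := p) k := by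
    let f : ↥(LinearMap.ker Θ) →ₗ[ZMod p] ↥(B1 (ad D 0) idG) :=
      (Z.subtype.comp ((LinearMap.fst (ZMod p) ↥Z C).comp (LinearMap.ker Θ).subtype)).codRestrict _
        fun x => by
          refine hdet0 _ x.1.1.2 fun q hq => ?_
          have h := congrArg Subtype.val (congrFun (LinearMap.mem_ker.1 x.2) ⟨q, hq⟩)
          change res1 (p := p) (Dec (V q)).subtype x.1.1.1 + (x.1.2 ⟨q, hq⟩).1 = 0 at h
          show res1 (p := p) (Dec (V q)).subtype x.1.1.1 ∈ _
          rw [eq_neg_of_add_eq_zero_left h]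
          exact Submodule.neg_mem _ (x.1.2 ⟨q, hq⟩).2
    have hf : Function.Injective f := fun a b h => by
      have h0 := congrArg Subtype.val h
      have h1 : a.1.1 = b.1.1 := Subtype.ext h0
      refine Subtype.ext (Prod.ext h1 (funext fun q => Subtype.ext ?_))
      have ha := congrArg Subtype.val (congrFun (LinearMap.mem_ker.1 a.2) q)
      have hb := congrArg Subtype.val (congrFun (LinearMap.mem_ker.1 b.2) q)
      change res1 (p := p) (Dec (V q.1)).subtype a.1.1.1 + (a.1.2 q).1 = 0 at ha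
      change res1 (p := p) (Dec (V q.1)).subtype b.1.1.1 + (b.1.2 q).1 = 0 at hb
      rw [h1] at ha
      exact add_left_cancel (ha.trans hb.symm)
    exact (LinearMap.finrank_le_finrank_of_injective hf).trans
      ((LinearMap.finrank_range_le _).trans finrank_adW.le)
  have r1 := LinearMap.finrank_range_add_finrank_ker Φ
  have r2 := LinearMap.finrank_range_add_finrank_ker (K := ZMod p) (V := ↥Z × C) (V₂ := Wl) Θ
  rw [Module.finrank_prod] at r2
  have hWd : Module.finrank (ZMod p) Wl = ∑ q ∈ S, Module.finrank (ZMod p) ↥(P q) := by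
    rw [show Module.finrank (ZMod p) Wl = ∑ q : ↥S, Module.finrank (ZMod p) ↥(P q.1) from
      Module.finrank_pi_fintype (ZMod p),
      Finset.sum_coe_sort S fun q => Module.finrank (ZMod p) ↥(P q)]
  have hCd : Module.finrank (ZMod p) C +
      ∑ q ∈ S, Module.finrank (ZMod p) ↥(inv (ad D 0) (Dec (V q))) =
        S.card * (3 * deg (p := p) k) := by
    rw [show Module.finrank (ZMod p) C =
        ∑ q : ↥S, Module.finrank (ZMod p) ↥(B1 (ad D 0) (Dec (V q.1)).subtype) from
        Module.finrank_pi_fintype (ZMod p),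
      Finset.sum_coe_sort S fun q => Module.finrank (ZMod p) ↥(B1 (ad D 0) (Dec (V q)).subtype),
      ← Finset.sum_add_distrib, Finset.sum_congr rfl fun q _ => finrank_B1_add (ad D 0) (Dec (V q)),
      Finset.sum_const, smul_eq_mul, finrank_adW]
  rw [Finset.sum_sub_distrib, Finset.sum_const, nsmul_eq_mul]
  have hWd' : ((Module.finrank (ZMod p) Wl : ℕ) : ℤ) =
      ∑ q ∈ S, (Module.finrank (ZMod p) ↥(P q) : ℤ) := by
    rw [hWd]; push_cast; rfl
  rw [← hWd']
  have hCd' : ((Module.finrank (ZMod p) C : ℕ) : ℤ) +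
      ((∑ q ∈ S, Module.finrank (ZMod p) ↥(inv (ad D 0) (Dec (V q))) : ℕ) : ℤ) =
        (S.card : ℤ) * (3 * (deg (p := p) k : ℤ)) := by exact_mod_cast hCd
  zify at hΘd hdual r1 r2 hkerΦ hkerΘ hlow
  push_cast at hCd' hlow ⊢
  linarith

end FLTAgent.TWPrimes
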