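import Fermat.Agent.TWPrimes.Count.Residual

/-!
# Auxiliary primes seeing every class of the twisted adjoint
-/

set_option autoImplicit false
set_option linter.style.haveILetI false
set_option linter.unusedSectionVars false

noncomputable section

open scoped Pointwise

namespace FLTAgent.TWPrimes

open FLTAgent.PoitouTate

local notation "LL" => AlgebraicClosure ℚ
local notation "GG" => (AlgebraicClosure ℚ ≃ₐ[ℚ] AlgebraicClosure ℚ)
local notation "VS" => ValuationSubring (AlgebraicClosure ℚ)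
local notation "Dec" => ValuationSubring.decompositionSubgroup ℚ
local notation "idG" => MonoidHom.id (AlgebraicClosure ℚ ≃ₐ[ℚ] AlgebraicClosure ℚ)

variable {p : ℕ} [Fact p.Prime]

/-- A coboundary on one decomposition group over a prime is one on all of them. -/
theorem res_mem_B1_smul {A : Type} [AddCommGroup A] [Module (ZMod p) A]
    {ρ : Representation (ZMod p) GG A} {c : GG → A} (hc : ∀ g h, c (g * h) = c g + ρ g (c h))
    {V : VS} (hb : res1 (p := p) (Dec V).subtype c ∈ B1 ρ (Dec V).subtype) (γ : GG) :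
    res1 (p := p) (Dec (γ • V)).subtype c ∈ B1 ρ (Dec (γ • V)).subtype := by
  obtain ⟨m, hm⟩ := hb
  refine ⟨ρ γ m - c γ, funext fun x => ?_⟩
  have h1 : γ⁻¹ * (x : GG) * γ ∈ Dec V := by
    rw [MulAction.mem_stabilizer_iff, mul_smul, mul_smul, MulAction.mem_stabilizer_iff.1 x.2,
      inv_smul_smul]
  have h2 : c (γ⁻¹ * (x : GG) * γ) = ρ (γ⁻¹ * (x : GG) * γ) m - m :=
    (congrFun hm ⟨_, h1⟩).symm
  have h3 := cob_conj hc (g := γ) h2
  rw [show γ * (γ⁻¹ * (x : GG) * γ) * γ⁻¹ = (x : GG) by group] at h3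
  exact h3.symm

theorem res_mem_B1_of_one {A : Type} [AddCommGroup A] [Module (ZMod p) A]
    {ρ : Representation (ZMod p) GG A} {c : GG → A} (hc : ∀ g h, c (g * h) = c g + ρ g (c h))
    {q : Nat.Primes} {V W : VS} (hV : V.LiesOverPrime (q : ℕ)) (hW : W.LiesOverPrime (q : ℕ))
    (hb : res1 (p := p) (Dec V).subtype c ∈ B1 ρ (Dec V).subtype) :
    res1 (p := p) (Dec W).subtype c ∈ B1 ρ (Dec W).subtype := by
  obtain ⟨γ, rfl⟩ := Places.exists_smul_eq q.2 hV hW
  exact res_mem_B1_smul hc hb γ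

variable {k : Type} [Field k] [Algebra (ZMod p) k] [Finite k] (D : Datum p k)

/-- The primes allowed. -/
def Good (n : ℕ) (S avoid Q : Finset Nat.Primes) : Prop :=
  ∀ q ∈ Q, q ∉ avoid ∧ q ∉ S ∧ IsAux D n q

/-- The classes not seen at a set of primes. -/
def hidden (S Q : Finset Nat.Primes) : Submodule (ZMod p) (GG → W k) :=
  Z1S (ad D 1) idG S ⊓ ⨅ x : {x : Nat.Primes × VS // x.1 ∈ Q ∧ x.2.LiesOverPrime (x.1 : ℕ)},
    (B1 (ad D 1) (Dec x.1.2).subtype).comap (res1 (p := p) (Dec x.1.2).subtype)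

theorem mem_hidden {S Q : Finset Nat.Primes} {c : GG → W k} :
    c ∈ hidden D S Q ↔ c ∈ Z1S (ad D 1) idG S ∧ ∀ q ∈ Q, ∀ V : VS, V.LiesOverPrime (q : ℕ) →
      res1 (p := p) (Dec V).subtype c ∈ B1 (ad D 1) (Dec V).subtype := by
  simp [hidden, Submodule.mem_iInf]
  exact fun _ => ⟨fun h q hq V hV => h q V hq hV, fun h q V hq hV => h q hq V hV⟩

theorem exists_detecting (hP : TargetPrimes) (S : Finset Nat.Primes) (hbad : D.bad ⊆ S) (n : ℕ)
    (avoid : Finset Nat.Primes) :
    ∀ (d : ℕ) (Q : Finset Nat.Primes), Good D n S avoid Q →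
      Module.finrank (ZMod p) ↥(hidden D S Q) ≤ d →
      ∃ Q', Q ⊆ Q' ∧ Good D n S avoid Q' ∧ Q'.card ≤ Q.card + d ∧
        hidden D S Q' ≤ B1 (ad D 1) idG := by
  classical
  haveI := finite_Z1S_ad D 1 S hbad
  intro d
  induction d with
  | zero =>
    intro Q hQ hd
    haveI : FiniteDimensional (ZMod p) ↥(hidden D S Q) :=
      Submodule.finiteDimensional_of_le (S₂ := Z1S (ad D 1) idG S) inf_le_left
    refine ⟨Q, subset_rfl, hQ, le_rfl, ?_⟩
    rw [Submodule.finrank_eq_zero.1 (Nat.le_zero.1 hd)]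
    exact bot_le
  | succ d ih =>
    intro Q hQ hd
    by_cases hle : hidden D S Q ≤ B1 (ad D 1) idG
    · exact ⟨Q, subset_rfl, hQ, Nat.le_add_right _ _, hle⟩
    obtain ⟨c, hc, hcn⟩ := SetLike.not_le_iff_exists.1 hle
    obtain ⟨q, hq, haux, hsee⟩ :=
      (hP p k D n (avoid ∪ S ∪ Q)).2 S c ((mem_hidden D).1 hc).1 hcn
    simp only [Finset.mem_union, not_or] at hq
    obtain ⟨⟨hqa, hqS⟩, hqQ⟩ := hq
    have hgood : Good D n S avoid (insert q Q) := fun r hr => by
      rcases Finset.mem_insert.1 hr with rfl | hr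
      · exact ⟨hqa, hqS, haux⟩
      · exact hQ r hr
    haveI : FiniteDimensional (ZMod p) ↥(hidden D S Q) :=
      Submodule.finiteDimensional_of_le (S₂ := Z1S (ad D 1) idG S) inf_le_left
    obtain ⟨V, hV⟩ := Frobenius.exists_liesOverPrime q q.2
    have hlt : hidden D S (insert q Q) < hidden D S Q := by
      refine lt_of_le_of_ne (fun x hx => ?_) fun h => hsee V hV
        (((mem_hidden D).1 (h ▸ hc : c ∈ hidden D S (insert q Q))).2 q
          (Finset.mem_insert_self _ _) V hV)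
      rw [mem_hidden] at hx ⊢
      exact ⟨hx.1, fun r hr => hx.2 r (Finset.mem_insert_of_mem hr)⟩
    have hlt' := Submodule.finrank_lt_finrank_of_lt hlt
    obtain ⟨Q', hQQ, hg, hcard, hdet⟩ := ih (insert q Q) hgood (by omega)
    exact ⟨Q', (Finset.subset_insert _ _).trans hQQ, hg,
      hcard.trans (by rw [Finset.card_insert_of_notMem hqQ]; omega), hdet⟩

/-- A class which is a coboundary on the decomposition groups over some primes is unramified
there. -/
theorem mem_outside_of_cob (e : ℕ) {S Q : Finset Nat.Primes} (hbad : D.bad ⊆ S) {c : GG → W k}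
    (hc : c ∈ Z1S (ad D e) idG (S ∪ Q))
    (hcob : ∀ q ∈ Q, ∀ V : VS, V.LiesOverPrime (q : ℕ) →
      res1 (p := p) (Dec V).subtype c ∈ B1 (ad D e) (Dec V).subtype) :
    c ∈ Z1S (ad D e) idG S := by
  classical
  refine mem_Z1S_of_inertia (smooth_ad D e) hc.1 fun q hq V hV σ hσ =>
    ⟨ad_of_inertia D e (fun h => hq (hbad h)) hV hσ, ?_⟩
  by_cases hqQ : q ∈ Q
  · obtain ⟨m, hm⟩ := hcob q hqQ V hV
    have h := congrFun hm ⟨σ, Places.inertia_le_decomposition V hσ⟩
    rw [d0_apply, Subgroup.coe_subtype, ad_of_inertia D e (fun h => hq (hbad h)) hV hσ,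
      LinearMap.id_apply, sub_self] at h
    exact h.symm
  · exact inertia_eq_zero hc (by simp [hq, hqQ]) hV hσ

end FLTAgent.TWPrimes
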