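import Fermat.Agent.TWPrimes.Count.Local
import Fermat.Agent.TWPrimes.Count.Count
import Fermat.Agent.TWPrimes.Count.Detect
import Fermat.Agent.PoitouTate.LocalDual.Target

/-!
# The tangent bound with auxiliary primes, from the other parts
-/

set_option autoImplicit false
set_option linter.style.haveILetI false
set_option linter.unusedSectionVars false

noncomputable section

open scoped Pointwise

namespace FLTAgent.TWPrimes

open FLTAgent.PoitouTate

local notation "LL" => AlgebraicClosure ℚ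
local notation "GG" => (AlgebraicClosure ℚ ≃ₐ[ℚ] AlgebraicClosure ℚ)
local notation "VS" => ValuationSubring (AlgebraicClosure ℚ)
local notation "Dec" => ValuationSubring.decompositionSubgroup ℚ
local notation "idG" => MonoidHom.id (AlgebraicClosure ℚ ≃ₐ[ℚ] AlgebraicClosure ℚ)

/-- The bound, with at least `m` auxiliary primes. -/
theorem twBound_ge (hE : TargetEuler) (hC : TargetCyc) (hP : TargetPrimes) (m : ℕ) (p : ℕ)
    [Fact p.Prime] (k : Type) [Field k] [Finite k] [Algebra (ZMod p) k] (D : Datum p k)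
    (S : Finset Nat.Primes) (hbad : D.bad ⊆ S) :
    ∃ r : ℕ, m ≤ r ∧ ∀ (n : ℕ) (avoid : Finset Nat.Primes), ∃ Q : Finset Nat.Primes, Q.card = r ∧
      (∀ q ∈ Q, q ∉ avoid ∧ q ∉ S ∧ IsAux D n q) ∧
      ∀ (V : Nat.Primes → VS), (∀ q, (V q).LiesOverPrime (q : ℕ)) →
      ∀ Zloc : ∀ q : Nat.Primes, Submodule (ZMod p) (↥(Dec (V q)) → W k),
        (∀ q ∈ S, IsLoc D (V q) (Zloc q)) →
      ∀ Z : Submodule (ZMod p) (GG → W k),
        Z ≤ Z1S (ad D 0) idG (S ∪ Q) →
        (∀ z ∈ Z, ∀ q ∈ S, res1 (p := p) (Dec (V q)).subtype z ∈ Zloc q) →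
        FiniteDimensional (ZMod p) ↥Z ∧
          (Module.finrank (ZMod p) ↥Z : ℤ) ≤ deg (p := p) k * (2 + r) +
            ∑ q ∈ S, ((Module.finrank (ZMod p) ↥(Zloc q) : ℤ) - 3 * deg (p := p) k) := by
  classical
  obtain ⟨F, hF⟩ := exists_field D
  obtain ⟨S₀, -, hE'⟩ := hE p k D
  have hcyc : CycDetect (ad D 0) F.N := by rw [hF]; exact (hC p k D).1
  obtain ⟨S₂, -, hsha⟩ := exists_sha1_le D.ne_two F D.p_mem (triv_ad D hF 0) hcyc
  set S' := S ∪ S₀ ∪ S₂ with hS'
  have hbad' : D.bad ⊆ S' :=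
    hbad.trans (Finset.subset_union_left.trans Finset.subset_union_left)
  haveI := finite_Z1S_ad D 1 S' hbad'
  refine ⟨Module.finrank (ZMod p) ↥(Z1S (ad D 1) idG S') + m, Nat.le_add_left _ _,
    fun n avoid => ?_⟩
  set r := Module.finrank (ZMod p) ↥(Z1S (ad D 1) idG S') + m
  obtain ⟨Q₁, -, hQ₁, hc1, hdet⟩ := exists_detecting D hP S' hbad' n avoid r ∅
    (fun q hq => absurd hq (Finset.notMem_empty q))
    ((Submodule.finrank_mono (inf_le_left : hidden D S' ∅ ≤ Z1S (ad D 1) idG S')).trans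
      (Nat.le_add_right _ m))
  have hpad : ∀ d : ℕ, ∃ Q, Q₁ ⊆ Q ∧ Good D n S' avoid Q ∧ Q.card = Q₁.card + d := by
    intro d
    induction d with
    | zero => exact ⟨Q₁, subset_rfl, hQ₁, rfl⟩
    | succ d ih =>
      obtain ⟨Q, h1, h2, h3⟩ := ih
      obtain ⟨q, hq, haux⟩ := (hP p k D n (avoid ∪ S' ∪ Q)).1
      simp only [Finset.mem_union, not_or] at hq
      obtain ⟨⟨hqa, hqS⟩, hqQ⟩ := hq
      refine ⟨insert q Q, h1.trans (Finset.subset_insert _ _), fun r hr => ?_,
        by rw [Finset.card_insert_of_notMem hqQ]; omega⟩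
      rcases Finset.mem_insert.1 hr with rfl | hr
      · exact ⟨hqa, hqS, haux⟩
      · exact h2 r hr
  rw [Finset.card_empty] at hc1
  obtain ⟨Q, hQ1, hQ, hcard⟩ := hpad (r - Q₁.card)
  have hcard' : Q.card = r := by omega
  refine ⟨Q, hcard', fun q hq => ⟨(hQ q hq).1, fun h => (hQ q hq).2.1
    (Finset.mem_union_left _ (Finset.mem_union_left _ h)), (hQ q hq).2.2⟩, ?_⟩
  intro V hV Zloc hZloc Z hZ hZres
  set S'' := S' ∪ Q with hS''
  have hsub : S ⊆ S' := Finset.subset_union_left.trans Finset.subset_union_left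
  have hbad'' : D.bad ⊆ S'' := hbad'.trans Finset.subset_union_left
  have hmono : ∀ e, Z1S (ad D e) idG (S ∪ Q) ≤ Z1S (ad D e) idG S'' :=
    fun e c ⟨hc, L, hL, hl⟩ => ⟨hc, L, hL.mono (Finset.union_subset_union hsub subset_rfl), hl⟩
  obtain ⟨c, hc⟩ := exists_isCC
  obtain ⟨hfin, hlow⟩ := hE' S''
    ((Finset.subset_union_right.trans Finset.subset_union_left).trans Finset.subset_union_left)
    V hV c hc
  have hlow' : 4 * deg (p := p) k + ∑ q ∈ S'', Module.finrank (ZMod p) ↥(inv (ad D 0) (Dec (V q))) ≤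
      Module.finrank (ZMod p) ↥(Z1S (ad D 1) idG S'') := by
    have h1 := deg_le_inv_isCC D hc
    rw [inv_ad_top D, finrank_bot, add_zero, locTerm, finrank_adW] at hlow
    omega
  let P : (q : Nat.Primes) → Submodule (ZMod p) (↥(Dec (V q)) → W k) := fun q =>
    if q ∈ S then Zloc q else if q ∈ Q then Z1 (ad D 0) (Dec (V q)).subtype else unramZ D (V q)
  have PS : ∀ q ∈ S, P q = Zloc q := fun q hq => if_pos hq
  have PQ : ∀ q ∈ Q, P q = Z1 (ad D 0) (Dec (V q)).subtype := fun q hq =>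
    (if_neg fun h => (hQ q hq).2.1 (hsub h)).trans (if_pos hq)
  have P0 : ∀ q, q ∉ S → q ∉ Q → P q = unramZ D (V q) := fun q h1 h2 =>
    (if_neg h1).trans (if_neg h2)
  have key := count D S'' hbad'' V hV P
    (fun q _ => by
      by_cases h1 : q ∈ S
      · rw [PS q h1]; exact hZloc q h1
      by_cases h2 : q ∈ Q
      · rw [PQ q h2]
        exact ⟨le_rfl, B1_le_Z1 (smooth_ad D 0), (finrank_Z1_aux D (hQ q h2).2.2 (hV q)).1⟩
      · rw [P0 q h1 h2]
        exact ⟨fun c hc => ((mem_unramZ D).1 hc).1, B1_le_unramZ D (fun h => h1 (hbad h)) (hV q),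
          (finrank_unramZ D (hV q)).1⟩)
    hlow' Z (hZ.trans (hmono 0))
    (fun z hz q _ => by
      have hz1 : res1 (p := p) (Dec (V q)).subtype z ∈ Z1 (ad D 0) (Dec (V q)).subtype :=
        res1_mem_Z1 (Dec (V q)).subtype (hZ hz).1
      by_cases h1 : q ∈ S
      · rw [PS q h1]; exact hZres z hz q h1
      by_cases h2 : q ∈ Q
      · rw [PQ q h2]; exact hz1
      · rw [P0 q h1 h2]
        exact (mem_unramZ D).2 ⟨hz1, fun σ hσ =>
          inertia_eq_zero (hZ hz) (by simp [h1, h2]) (hV q) hσ⟩)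
    (fun z hz hcob => hsha S'' (Finset.subset_union_right.trans Finset.subset_union_left) V hV
      ((mem_sha1 V).2 ⟨hmono 0 (hZ hz), hcob⟩))
    (fun y hy horth => by
      have h1 : ∀ q ∈ Q, ∀ W' : VS, W'.LiesOverPrime (q : ℕ) →
          res1 (p := p) (Dec W').subtype y ∈ B1 (ad D 1) (Dec W').subtype := fun q hq W' hW' => by
        refine res_mem_B1_of_one hy.1.2 (hV q) hW' ?_
        refine targetLocalDual targetField p D.ne_two S'' (hbad'' D.p_mem) (Field.mono F hbad'')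
          (W k) (W k) (ad D 0) (ad D 1) (adPair D) (triv_ad D hF 0) (triv_ad D hF 1)
          q (Finset.mem_union_right _ hq) (V q) (hV q) _ (res1_mem_Z1 (Dec (V q)).subtype hy.1) fun x hx => ?_
        have h := horth q (Finset.mem_union_right _ hq)
        rw [PQ q hq] at h
        exact h x hx
      have h2 := mem_outside_of_cob D 1 hbad' hy h1
      exact hdet ((mem_hidden D).2 ⟨h2, fun q hq => h1 q (hQ1 hq)⟩))
  refine ⟨key.1, key.2.trans ?_⟩
  -- the sum
  have hdisj : Disjoint S' Q := Finset.disjoint_right.2 fun q hq => (hQ q hq).2.1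
  rw [hS'', Finset.sum_union hdisj, ← Finset.sum_sdiff hsub]
  have e1 : ∑ q ∈ S' \ S, ((Module.finrank (ZMod p) ↥(P q) : ℤ) - 3 * deg (p := p) k) ≤ 0 :=
    Finset.sum_nonpos fun q hq => by
      rw [Finset.mem_sdiff] at hq
      rw [P0 q hq.2 fun h => (hQ q h).2.1 hq.1]
      have := (finrank_unramZ D (hV q)).2
      omega
  have e2 : ∑ q ∈ Q, ((Module.finrank (ZMod p) ↥(P q) : ℤ) - 3 * deg (p := p) k) ≤
      (r : ℤ) * deg (p := p) k := by
    refine (Finset.sum_le_sum (g := fun _ => (deg (p := p) k : ℤ)) fun q hq => ?_).trans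
      (by simp [hcard'])
    rw [PQ q hq]
    have := (finrank_Z1_aux D (hQ q hq).2.2 (hV q)).2
    omega
  have e3 : ∑ q ∈ S, ((Module.finrank (ZMod p) ↥(P q) : ℤ) - 3 * deg (p := p) k) =
      ∑ q ∈ S, ((Module.finrank (ZMod p) ↥(Zloc q) : ℤ) - 3 * deg (p := p) k) :=
    Finset.sum_congr rfl fun q hq => by rw [PS q hq]
  rw [e3]
  linarith

theorem targetTWBound (hE : TargetEuler) (hC : TargetCyc) (hP : TargetPrimes) :
    TargetTWBound := fun p _ k _ _ _ D S hbad =>
  (twBound_ge hE hC hP 0 p k D S hbad).imp fun _ h => h.2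

end FLTAgent.TWPrimes
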