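import Fermat.Agent.TWPrimes.Count.Residual
import Fermat.Agent.Lowering.P6.Tame
import Fermat.Agent.Lowering.P1.Brauer.Tame.Structure

/-!
# The local cocycles away from `p`

Unramified cocycles are determined by the value at a Frobenius element; at an auxiliary prime one
more value, at a tame generator of inertia, lies in the line fixed by the Frobenius element.
-/

set_option autoImplicit false
set_option linter.style.haveILetI false
set_option linter.unusedSectionVars false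

noncomputable section

open scoped Pointwise

namespace FLTAgent.TWPrimes

open FLTAgent.PoitouTate FLTAgent.Lowering.P1.Brauer
open FLTAgent.Mazur (kum expChar)

local notation "LL" => AlgebraicClosure ℚ
local notation "GG" => (AlgebraicClosure ℚ ≃ₐ[ℚ] AlgebraicClosure ℚ)
local notation "VS" => ValuationSubring (AlgebraicClosure ℚ)
local notation "Dec" => ValuationSubring.decompositionSubgroup ℚ

variable {p : ℕ} [Fact p.Prime]

theorem Z1_map_one {A : Type} [AddCommGroup A] [Module (ZMod p) A]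
    {ρ : Representation (ZMod p) GG A} {G : Type} [Group G] {ι : G →* GG} {c : G → A}
    (hc : c ∈ Z1 ρ ι) : c 1 = 0 := by
  have h := hc.2 1 1
  rw [one_mul, map_one, rho_one] at h
  exact left_eq_add.1 h

/-- A cocycle is determined by inertia and a Frobenius element. -/
theorem eq_zero_of_frob {A : Type} [AddCommGroup A] [Module (ZMod p) A]
    {ρ : Representation (ZMod p) GG A} {q : ℕ} (hq : q.Prime) {V : VS} (hV : V.LiesOverPrime q)
    {φ : GG} (hφ : V.IsFrobeniusAt φ q) {c : ↥(Dec V) → A} (hc : c ∈ Z1 ρ (Dec V).subtype)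
    (h0 : c ⟨φ, hφ.mem_decompositionSubgroup⟩ = 0)
    (hI : ∀ σ : ↥(Dec V), (σ : GG) ∈ V.inertiaSubgroupIn ℚ → c σ = 0) : c = 0 := by
  set φD : ↥(Dec V) := ⟨φ, hφ.mem_decompositionSubgroup⟩
  obtain ⟨F, hF, hlev⟩ := hc.1
  haveI := hF
  obtain ⟨N, hN, hNn, hFN⟩ := exists_normal_le F
  haveI := hN
  haveI := hNn
  have hpow : ∀ i : ℕ, c (φD ^ i) = 0 := fun i => by
    induction i with
    | zero => rw [pow_zero]; exact Z1_map_one hc
    | succ i ih => rw [pow_succ, hc.2, ih, h0, map_zero, add_zero]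
  funext τ
  obtain ⟨i, ν, σ, hσ, hν, hτ⟩ :=
    FLTAgent.Lowering.P6.exists_pow_mul_inertia_mul V hq hV hφ N τ.2
  have hσD := Places.inertia_le_decomposition V hσ
  have hνD : ν ∈ Dec V := by
    rw [show ν = (φ ^ i)⁻¹ * τ.1 * σ⁻¹ by rw [hτ]; group]
    exact mul_mem (mul_mem (inv_mem (pow_mem φD.2 i)) τ.2) (inv_mem hσD)
  rw [show τ = φD ^ i * ⟨ν, hνD⟩ * ⟨σ, hσD⟩ from Subtype.ext hτ, hc.2, hI ⟨σ, hσD⟩ hσ, map_zero,
    add_zero, hlev (φD ^ i) ⟨ν, hνD⟩ (IntermediateField.fixingSubgroup_antitone hFN hν), hpow]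
  rfl

variable {k : Type} [Field k] [Algebra (ZMod p) k] (D : Datum p k)

/-- The unramified local cocycles. -/
def unramZ (V : VS) : Submodule (ZMod p) (↥(Dec V) → W k) :=
  Z1 (ad D 0) (Dec V).subtype ⊓
    ⨅ σ : {σ : ↥(Dec V) // (σ : GG) ∈ V.inertiaSubgroupIn ℚ}, LinearMap.ker (LinearMap.proj σ.1)

theorem mem_unramZ {V : VS} {c : ↥(Dec V) → W k} :
    c ∈ unramZ D V ↔ c ∈ Z1 (ad D 0) (Dec V).subtype ∧
      ∀ σ : ↥(Dec V), (σ : GG) ∈ V.inertiaSubgroupIn ℚ → c σ = 0 := by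
  simp [unramZ, Submodule.mem_iInf]

theorem B1_le_unramZ {q : Nat.Primes} (hq : q ∉ D.bad) {V : VS} (hV : V.LiesOverPrime (q : ℕ)) :
    B1 (ad D 0) (Dec V).subtype ≤ unramZ D V := fun c hc =>
  (mem_unramZ D).2 ⟨B1_le_Z1 (smooth_ad D 0) hc, fun σ hσ => by
    obtain ⟨a, rfl⟩ := hc
    rw [d0_apply, Subgroup.coe_subtype, ad_of_inertia D 0 hq hV hσ, LinearMap.id_apply, sub_self]⟩

variable [Finite k]

theorem finrank_unramZ {q : Nat.Primes} {V : VS} (hV : V.LiesOverPrime (q : ℕ)) :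
    FiniteDimensional (ZMod p) ↥(unramZ D V) ∧
      Module.finrank (ZMod p) ↥(unramZ D V) ≤ 3 * deg (p := p) k := by
  obtain ⟨φ, hφ⟩ := Frobenius.exists_isFrobeniusAt V q q.2 hV
  let ev : ↥(unramZ D V) →ₗ[ZMod p] W k :=
    (LinearMap.proj (⟨φ, hφ.mem_decompositionSubgroup⟩ : ↥(Dec V))).comp (unramZ D V).subtype
  have hev : Function.Injective ev := LinearMap.ker_eq_bot.1 <| LinearMap.ker_eq_bot'.2 fun c hc =>
    Subtype.ext (eq_zero_of_frob q.2 hV hφ ((mem_unramZ D).1 c.2).1 hc ((mem_unramZ D).1 c.2).2)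
  haveI := FiniteDimensional.of_injective ev hev
  exact ⟨inferInstance, (LinearMap.finrank_le_finrank_of_injective hev).trans finrank_adW.le⟩

theorem q_eq_one {n : ℕ} {q : Nat.Primes} (hq : IsAux D n q) : ((q : ℕ) : ZMod p) = 1 := by
  have h : (((q : ℕ) - 1 : ℕ) : ZMod p) = 0 := (CharP.cast_eq_zero_iff (ZMod p) p _).2
    ((dvd_pow_self p (Nat.succ_ne_zero n)).trans hq.2.1)
  rwa [Nat.cast_sub q.2.one_le, Nat.cast_one, sub_eq_zero] at h

theorem prime_not_dvd {q : Nat.Primes} (hq : q ∉ D.bad) : ¬ (q : ℕ) ∣ p := fun h =>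
  hq (by
    have e : q = ExtCitation.pPrime p :=
      Subtype.ext ((Nat.prime_dvd_prime_iff_eq q.2 (Fact.out : p.Prime)).1 h)
    exact e ▸ D.p_mem)

/-- The line fixed by a Frobenius element with distinct eigenvalues. -/
theorem finrank_fixed_le (φ : GG)
    (h : ∃ a b : k, a ≠ b ∧ Matrix.trace (D.rb φ : Matrix (Fin 2) (Fin 2) k) = a + b ∧
      Matrix.det (D.rb φ : Matrix (Fin 2) (Fin 2) k) = a * b) :
    Module.finrank (ZMod p) ↥(LinearMap.ker (ad D 0 φ - LinearMap.id)) ≤ deg (p := p) k := by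
  haveI := finite_coeff (p := p) (k := k)
  obtain ⟨a, b, hab, htr, hdet⟩ := h
  set R := (D.rb φ : Matrix (Fin 2) (Fin 2) k)
  have hdisc : (R 0 0 - R 1 1) ^ 2 + 4 * (R 0 1 * R 1 0) ≠ 0 := by
    rw [Matrix.trace_fin_two] at htr
    rw [Matrix.det_fin_two] at hdet
    rw [show (R 0 0 - R 1 1) ^ 2 + 4 * (R 0 1 * R 1 0) = (a - b) ^ 2 by
      linear_combination (R 0 0 + R 1 1 + a + b) * htr - 4 * hdet]
    exact pow_ne_zero _ (sub_ne_zero.2 hab)
  let f : ↥(LinearMap.ker (ad D 0 φ - LinearMap.id)) →ₗ[ZMod p] k :=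
    { toFun := fun A => Matrix.trace (A.1.1 * R)
      map_add' := fun A B => by simp [add_mul, Matrix.trace_add]
      map_smul' := fun r A => by
        simp only [Submodule.coe_smul_of_tower, smul_mul_assoc, Matrix.trace_smul, RingHom.id_apply] }
  refine LinearMap.finrank_le_finrank_of_injective (f := f) ((injective_iff_map_eq_zero f).2 ?_)
  rintro ⟨A, hA⟩ h0
  rw [LinearMap.mem_ker, LinearMap.sub_apply, LinearMap.id_apply, sub_eq_zero] at hA
  have hcomm : R * A.1 = A.1 * R := by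
    have h1 := congrArg Subtype.val hA
    rw [ad_coe, adM_zero] at h1
    calc R * A.1 = R * A.1 * (((D.rb φ)⁻¹ : GL (Fin 2) k).val * R) := by
          rw [← Units.val_mul, inv_mul_cancel, Units.val_one, Matrix.mul_one]
      _ = A.1 * R := by rw [← Matrix.mul_assoc, h1]
  change Matrix.trace (A.1 * R) = 0 at h0
  have e00 := congrFun (congrFun hcomm 0) 0
  have e01 := congrFun (congrFun hcomm 0) 1
  have e10 := congrFun (congrFun hcomm 1) 0
  simp only [Matrix.mul_apply, Fin.sum_univ_two] at e00 e01 e10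
  rw [Matrix.trace_fin_two, Matrix.mul_apply, Matrix.mul_apply, Fin.sum_univ_two,
    Fin.sum_univ_two] at h0
  have htA := W_trace A
  set x := A.1 0 0
  set y := A.1 0 1
  set z := A.1 1 0
  have hw : A.1 1 1 = -x := eq_neg_of_add_eq_zero_right htA
  rw [hw] at e01 e10 h0
  have key : ∀ u : k, ((R 0 0 - R 1 1) ^ 2 + 4 * (R 0 1 * R 1 0)) * u = 0 → u = 0 := fun u hu =>
    (mul_eq_zero.1 hu).resolve_left hdisc
  have hx : x = 0 := key x (by
    linear_combination (R 0 0 - R 1 1) * h0 - R 1 0 * e01 + R 0 1 * e10)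
  have hy : y = 0 := key y (by
    linear_combination 2 * R 0 1 * h0 + (R 0 0 - R 1 1) * e01 - 2 * R 0 1 * e00)
  have hz : z = 0 := key z (by
    linear_combination 2 * R 1 0 * h0 - (R 0 0 - R 1 1) * e10 + 2 * R 1 0 * e00)
  refine Subtype.ext (Subtype.ext (Matrix.ext fun i j => ?_))
  fin_cases i <;> fin_cases j
  · exact hx
  · exact hy
  · exact hz
  · show A.1 1 1 = 0
    rw [hw, hx, neg_zero]

/-- The bound at an auxiliary prime. -/
theorem finrank_Z1_aux {n : ℕ} {q : Nat.Primes} (hq : IsAux D n q) {V : VS}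
    (hV : V.LiesOverPrime (q : ℕ)) :
    FiniteDimensional (ZMod p) ↥(Z1 (ad D 0) (Dec V).subtype) ∧
      Module.finrank (ZMod p) ↥(Z1 (ad D 0) (Dec V).subtype) ≤ 4 * deg (p := p) k := by
  classical
  have hpr : p.Prime := Fact.out
  have hne : (q : ℕ) ≠ p := fun h => prime_not_dvd D hq.1 (by rw [h])
  have hqm := prime_not_dvd D hq.1
  have hID := Places.inertia_le_decomposition V
  obtain ⟨φ, hφ⟩ := Frobenius.exists_isFrobeniusAt V q q.2 hV
  obtain ⟨ζ, hζ⟩ := HasEnoughRootsOfUnity.exists_primitiveRoot LL p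
  obtain ⟨π, hπ⟩ := IsAlgClosed.exists_pow_nat_eq ((q : ℕ) : LL) hpr.pos
  obtain ⟨σ₀, hσ₀, hσ₀ne⟩ := Tame.exists_kum_ne_zero q.2 hne hV hζ hπ
  set φD : ↥(Dec V) := ⟨φ, hφ.mem_decompositionSubgroup⟩
  set σD : ↥(Dec V) := ⟨σ₀, hID hσ₀⟩
  have hun : ∀ σ : ↥(Dec V), (σ : GG) ∈ V.inertiaSubgroupIn ℚ → ad D 0 (σ : GG) = LinearMap.id :=
    fun σ hσ => ad_of_inertia D 0 hq.1 hV hσ
  set Z := Z1 (ad D 0) (Dec V).subtype
  -- on inertia a cocycle is a multiple of the tame character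
  have hprop : ∀ c ∈ Z, ∀ σ : ↥(Dec V), (σ : GG) ∈ V.inertiaSubgroupIn ℚ →
      c σ = kum p ζ π σ • ((kum p ζ π σ₀)⁻¹ • c σD) := by
    intro c hc σ hσ
    obtain ⟨F, hF, hlev⟩ := hc.1
    haveI := hF
    obtain ⟨N, hN, hNn, hFN⟩ := exists_normal_le F
    haveI := hN
    haveI := hNn
    let f : ↥(Dec V) →* (N ≃ₐ[ℚ] N) := (AlgEquiv.restrictNormalHom N).comp (Dec V).subtype
    have hker : ∀ x y : ↥(Dec V), f x = f y → c x = c y := fun x y h => by
      have hm : ((x⁻¹ * y : ↥(Dec V)) : GG) ∈ N.fixingSubgroup := by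
        rw [IntermediateField.mem_fixingSubgroup_iff]
        intro z hz
        have h1 : f (x⁻¹ * y) = 1 := by rw [map_mul, map_inv, h, inv_mul_cancel]
        exact (AlgEquiv.restrictNormal_commutes _ N ⟨z, hz⟩).symm.trans
          (congrArg (fun s : N ≃ₐ[ℚ] N => ((s ⟨z, hz⟩ : N) : LL)) h1)
      have h2 := hlev x (x⁻¹ * y) (IntermediateField.fixingSubgroup_antitone hFN hm)
      rw [mul_inv_cancel_left] at h2
      exact h2.symm
    have hfl : FLTAgent.Lowering.P1.LevC (Dec V).subtype f := ⟨N, hN, fun g s hs => by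
      rw [map_mul]
      refine mul_eq_left.2 (AlgEquiv.ext fun z => Subtype.ext ?_)
      exact (AlgEquiv.restrictNormal_commutes (s : GG) N z).trans
        ((IntermediateField.mem_fixingSubgroup_iff N _).1 hs _ z.2)⟩
    refine (Module.evalEquiv (ZMod p) (W k)).injective (LinearMap.ext fun θ => ?_)
    show θ _ = θ _
    let ψ : (N ≃ₐ[ℚ] N) → ZMod p := fun x =>
      if h : ∃ τ, f τ = x then θ (c h.choose) else 0
    have hψ : ∀ τ, ψ (f τ) = θ (c τ) := fun τ => by
      have h : ∃ τ', f τ' = f τ := ⟨τ, rfl⟩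
      rw [show ψ (f τ) = _ from dif_pos h, hker _ _ h.choose_spec]
    obtain ⟨i, hi⟩ := FLTAgent.Lowering.P6.exists_mul_kum V f q.2 hV hqm hζ hπ hfl ψ
      fun x y hx _ => by
        rw [hψ, hψ, hψ, hc.2, Subgroup.coe_subtype, hun x hx, LinearMap.id_apply, map_add]
    have h0 := hi σD hσ₀
    have h1 := hi σ hσ
    rw [hψ] at h0 h1
    rw [map_smul, map_smul, smul_eq_mul, smul_eq_mul, h0, h1,
      show ((σD : ↥(Dec V)) : GG) = σ₀ from rfl]
    field_simp
  -- the value at the tame generator is fixed by Frobenius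
  have hfix : ∀ c ∈ Z, c σD ∈ LinearMap.ker (ad D 0 φ - LinearMap.id) := by
    intro c hc
    rw [LinearMap.mem_ker, LinearMap.sub_apply, LinearMap.id_apply, sub_eq_zero]
    have hconjI : ((φD * σD * φD⁻¹ : ↥(Dec V)) : GG) ∈ V.inertiaSubgroupIn ℚ :=
      Mazur.conj_mem V φD.2 hσ₀
    have hkum : kum p ζ π ((φD * σD * φD⁻¹ : ↥(Dec V)) : GG) = kum p ζ π σ₀ := by
      rw [show ((φD * σD * φD⁻¹ : ↥(Dec V)) : GG) = φ * σ₀ * φ⁻¹ from rfl,
        Mazur.kum_conj q.2 hV hqm hζ hπ hσ₀,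
        FLTAgent.Lowering.P6.expChar_frobenius V q.2 hV hqm hζ hφ, q_eq_one D hq, one_mul]
    have h1 : c (φD * σD * φD⁻¹) = c σD := by
      rw [hprop c hc _ hconjI, hkum, smul_smul, mul_inv_cancel₀ hσ₀ne, one_smul]
    have h2 : c φD + ad D 0 φ (c φD⁻¹) = 0 := by
      rw [← Z1_map_one hc, ← mul_inv_cancel φD, hc.2]
      rfl
    rw [hc.2, hc.2, Subgroup.coe_subtype, Subgroup.coe_mul, rho_mul,
      hun σD hσ₀, LinearMap.id_apply] at h1
    change c φD + ad D 0 φ (c σD) + ad D 0 φ (c φD⁻¹) = c σD at h1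
    rwa [add_right_comm, h2, zero_add] at h1
  let ev : ↥Z →ₗ[ZMod p] W k × ↥(LinearMap.ker (ad D 0 φ - LinearMap.id)) :=
    ((LinearMap.proj φD).comp Z.subtype).prod
      (((LinearMap.proj σD).comp Z.subtype).codRestrict _ fun c => hfix c.1 c.2)
  have hev : Function.Injective ev := LinearMap.ker_eq_bot.1 <| LinearMap.ker_eq_bot'.2 fun c hc => by
    have h1 : c.1 φD = 0 := congrArg Prod.fst hc
    have h2 : c.1 σD = 0 := congrArg Subtype.val (congrArg Prod.snd hc)
    refine Subtype.ext (eq_zero_of_frob q.2 hV hφ c.2 h1 fun σ hσ => ?_)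
    rw [hprop _ c.2 σ hσ, h2, smul_zero, smul_zero]
  haveI := FiniteDimensional.of_injective ev hev
  refine ⟨inferInstance, (LinearMap.finrank_le_finrank_of_injective hev).trans ?_⟩
  rw [Module.finrank_prod, finrank_adW]
  have := finrank_fixed_le D φ (hq.2.2 V hV φ hφ)
  omega

end FLTAgent.TWPrimes
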